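import Fermat.Agent.GaussDuplication.Main
import Mathlib.NumberTheory.LegendreSymbol.JacobiSymbol

/-!
# The values of a genus, and primes

The residues taken by the forms of one genus agree, and on them the Jacobi symbol `(D / m)` is `1`;
so a prime in such a residue class is a value of a form of that genus.
-/

set_option autoImplicit false

noncomputable section

namespace FA.GenusPrimes

open FA.GaussComposition FA.GaussDuplication

variable {D : ℤ}

/-- An odd number that is a value of a form has symbol one. -/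
theorem jacobi_of_value (hD : ¬IsSquare D) (f : Form D) {m : ℕ} {x y : ℤ}
    (h : f.eval x y = m) (hm : Odd m) (hcop : IsCoprime (m : ℤ) D) : jacobiSym D m = 1 := by
  obtain ⟨g, x', y', hg, hxy, rfl, rfl⟩ :=
    Int.exists_gcd_one' (show 0 < Int.gcd x y from Int.gcd_pos_iff.2 (not_and_or.1 fun h0 => by
      rw [h0.1, h0.2] at h
      simp [Form.eval] at h
      have : m = 0 := by exact_mod_cast h.symm
      exact Nat.not_odd_zero (this ▸ hm)))
  have hm0 : f.eval x' y' * (g : ℤ) ^ 2 = m := by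
    rw [← h]
    simp only [Form.eval]
    ring
  obtain ⟨p, q, hpq⟩ := Int.isCoprime_iff_gcd_eq_one.2 hxy
  obtain ⟨k, -, hka, -⟩ :=
    f.exists_transform hD (p := x') (q := -q) (r := y') (s := p) (by linear_combination hpq)
  obtain ⟨m', hm'⟩ : ∃ m' : ℕ, f.eval x' y' = m' := ⟨(f.eval x' y').natAbs, by
    have : 0 ≤ f.eval x' y' := nonneg_of_mul_nonneg_left (hm0 ▸ Int.natCast_nonneg m)
      (by positivity)
    omega⟩
  have hmm : m = m' * g ^ 2 := by
    rw [hm'] at hm0
    exact_mod_cast hm0.symm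
  subst hmm
  obtain ⟨hm'o, hgo⟩ := Nat.odd_mul.1 hm
  have : NeZero m' := ⟨hm'o.pos.ne'⟩
  have : NeZero g := ⟨hg.ne'⟩
  push_cast at hcop
  have hg1 : IsCoprime D (g : ℤ) := ((IsCoprime.of_mul_left_right hcop).of_isCoprime_of_dvd_left
    (dvd_pow_self _ two_ne_zero)).symm
  have hm1 : IsCoprime D (m' : ℤ) := (IsCoprime.of_mul_left_left hcop).symm
  have hne : ∀ n : ℕ, IsCoprime D (n : ℤ) → Int.gcd D n = 1 := fun n hn =>
    Int.isCoprime_iff_gcd_eq_one.1 hn
  rw [pow_two, jacobiSym.mul_right, jacobiSym.mul_right,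
    ← pow_two (jacobiSym D g), jacobiSym.sq_one (hne g hg1), mul_one]
  have e : D % (m' : ℤ) = k.b ^ 2 % (m' : ℤ) :=
    (Int.modEq_iff_dvd.2 ⟨4 * k.c, by rw [← hm', ← hka]; linear_combination k.disc⟩ :
      D ≡ k.b ^ 2 [ZMOD (m' : ℤ)])
  have hb : IsCoprime k.b (m' : ℤ) := by
    obtain ⟨u, v, huv⟩ := hm1
    refine ⟨u * k.b, v - 4 * u * k.c, ?_⟩
    have hd := k.disc
    rw [hka, hm'] at hd
    linear_combination huv + u * hd
  rw [jacobiSym.mod_left' e, jacobiSym.sq_one' (Int.isCoprime_iff_gcd_eq_one.1 hb)]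

/-- For a discriminant the symbol depends on the residue modulo `D`. -/
theorem jacobi_natAbs {D : ℤ} (hD : D % 4 = 1) {l : ℕ} (hl : Odd l) :
    jacobiSym D l = jacobiSym l D.natAbs := by
  have hqo : Odd D.natAbs := Nat.odd_iff.mpr (by omega)
  rcases le_total 0 D with h | h
  · have e : (D.natAbs : ℤ) = D := Int.natAbs_of_nonneg h
    conv_lhs => rw [← e]
    exact jacobiSym.quadratic_reciprocity_one_mod_four (by omega) hl
  · have e : -(D.natAbs : ℤ) = D := by omega
    conv_lhs => rw [← e]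
    rw [jacobiSym.neg _ hl]
    rcases Nat.odd_mod_four_iff.mp (Nat.odd_iff.mp hl) with h4 | h4
    · rw [ZMod.χ₄_nat_one_mod_four h4, one_mul,
        jacobiSym.quadratic_reciprocity_one_mod_four' hqo h4]
    · rw [ZMod.χ₄_nat_three_mod_four h4, neg_one_mul,
        jacobiSym.quadratic_reciprocity_three_mod_four (a := D.natAbs) (by omega) h4, neg_neg]

theorem jacobi_periodic (hD4 : D % 4 = 0 ∨ D % 4 = 1) {m n : ℕ} (hm : Odd m) (hn : Odd n)
    (h : (m : ℤ) ≡ n [ZMOD D]) : jacobiSym D m = jacobiSym D n := by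
  rcases hD4 with h0 | h1
  · obtain ⟨k, rfl⟩ := Int.dvd_of_emod_eq_zero h0
    have key : ∀ l : ℕ, Odd l → jacobiSym (4 * k) l = jacobiSym k (l % (4 * k.natAbs)) :=
      fun l hl => by
        rw [jacobiSym.mul_left, show (4 : ℤ) = 2 ^ 2 by norm_num, jacobiSym.sq_one', one_mul,
          jacobiSym.mod_right k hl]
        exact Int.isCoprime_iff_gcd_eq_one.1 (Int.isCoprime_iff_nat_coprime.2
          (Nat.coprime_two_left.2 (by simpa using hl)))
    rw [key m hm, key n hn]
    congr 1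
    exact Nat.modEq_iff_dvd.2 (by
      rw [show ((4 * k.natAbs : ℕ) : ℤ) = |4 * k| by rw [abs_mul]; simp, abs_dvd]
      exact h.dvd)
  · rw [jacobi_natAbs h1 hm, jacobi_natAbs h1 hn]
    refine jacobiSym.mod_left' (Int.modEq_iff_dvd.2 ?_)
    rw [Int.natAbs_dvd]
    exact h.dvd

/-- A value moved to an odd one. -/
theorem exists_odd_value (hodd : Odd D) (f : Form D) (x y : ℤ) :
    ∃ x' y', f.eval x' y' ≡ f.eval x y [ZMOD D] ∧ Odd (f.eval x' y') := by
  have hb : Odd f.b := by
    have h : Odd (f.b ^ 2) := by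
      rw [show f.b ^ 2 = D + 2 * (2 * f.a * f.c) by linear_combination f.disc]
      exact hodd.add_even (even_two_mul _)
    exact (Int.odd_pow.1 h).resolve_right (by norm_num)
  obtain ⟨s, t, hst⟩ : ∃ s t : ℤ, Odd (f.eval s t) := by
    by_contra h
    push Not at h
    have h1 := h 1 0
    have h2 := h 0 1
    have h3 := h 1 1
    simp [Form.eval, Int.not_odd_iff_even] at h1 h2 h3
    exact Int.not_even_iff_odd.2 ((h1.add_odd hb).add_even h2) h3
  obtain ⟨k, hk⟩ := hodd
  refine ⟨x + D * (s - x), y + D * (t - y), ?_, ?_⟩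
  · rw [Int.modEq_iff_dvd]
    refine ⟨-(f.a * (s - x) * (2 * x + D * (s - x)) + f.b * ((s - x) * y + (t - y) * x +
      D * (s - x) * (t - y)) + f.c * (t - y) * (2 * y + D * (t - y))), ?_⟩
    simp only [Form.eval]
    ring
  · rw [show f.eval (x + D * (s - x)) (y + D * (t - y)) = f.eval s t +
        2 * (k * (f.a * (s - x) * (s + x + D * (s - x)) + f.b * ((s - x) * t + (t - y) * x +
        D * (s - x) * (t - y)) + f.c * (t - y) * (t + y + D * (t - y)))) by
      simp only [Form.eval]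
      obtain rfl := hk
      ring]
    exact hst.add_even (even_two_mul _)

variable (hneg : D < 0)
include hneg

theorem not_isSquare_of_neg : ¬IsSquare D := fun ⟨r, hr⟩ => by
  have := mul_self_nonneg r
  omega

theorem eval_nonneg (f : Form D) (x y : ℤ) : 0 ≤ f.eval x y := by
  have h4 : 4 * (f.a * f.eval x y) = (2 * f.a * x + f.b * y) ^ 2 - D * y ^ 2 := by
    rw [Form.eval]
    linear_combination (-y ^ 2) * f.disc
  have := f.pos hneg
  nlinarith [sq_nonneg (2 * f.a * x + f.b * y), sq_nonneg y]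

/-- A prime in a residue class of the values has `D` as a square modulo `4 p`. -/
theorem exists_sq_mod (f : Form D) {p : ℕ} (hp : p.Prime) (hcop : IsCoprime (p : ℤ) D) {x y : ℤ}
    (h : f.eval x y ≡ p [ZMOD D]) : ∃ b : ℤ, 4 * (p : ℤ) ∣ b ^ 2 - D := by
  have hns := not_isSquare_of_neg hneg
  have hD4 := disc_mod_four f
  obtain ⟨x, y, h, hodd⟩ : ∃ x y : ℤ, f.eval x y ≡ p [ZMOD D] ∧ Odd (f.eval x y) := by
    rcases Int.even_or_odd D with hev | hod
    · refine ⟨x, y, h, ?_⟩
      obtain ⟨u, v, huv⟩ := isCoprime_of_modEq h.symm hcop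
      rw [← Int.not_even_iff_odd]
      intro he
      have : Even (1 : ℤ) := huv ▸ (he.mul_left u).add (hev.mul_left v)
      simp at this
    · obtain ⟨x', y', h1, h2⟩ := exists_odd_value hod f x y
      exact ⟨x', y', h1.trans h, h2⟩
  obtain ⟨m, hm⟩ : ∃ m : ℕ, f.eval x y = m :=
    ⟨_, (Int.natAbs_of_nonneg (eval_nonneg hneg f x y)).symm⟩
  rw [hm] at h hodd
  have hmo : Odd m := by exact_mod_cast hodd
  have hJ := jacobi_of_value hns f hm hmo (isCoprime_of_modEq h.symm hcop)
  rcases hp.eq_two_or_odd' with rfl | hpo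
  · have h1 : D % 4 = 1 := by
      rcases hD4 with h0 | h1
      · obtain ⟨u, v, huv⟩ := hcop
        obtain ⟨k, rfl⟩ := Int.dvd_of_emod_eq_zero h0
        have : 2 * (u + 2 * (v * k)) = 1 := by push_cast at huv; linear_combination huv
        omega
      · exact h1
    rw [jacobi_natAbs h1 hmo, jacobiSym.mod_left' (a₂ := 2) (Int.modEq_iff_dvd.2 (by
      rw [Int.natAbs_dvd]
      exact h.dvd)), jacobiSym.at_two (Nat.odd_iff.2 (by omega)), ZMod.χ₈_nat_eq_if_mod_eight]
      at hJ
    have h8 : D % 8 = 1 := by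
      split_ifs at hJ with e1 e2 <;> omega
    exact ⟨1, by omega⟩
  · have : Fact p.Prime := ⟨hp⟩
    rw [jacobi_periodic hD4 hmo hpo h] at hJ
    have hsq : IsSquare (D : ZMod p) := ZMod.isSquare_of_jacobiSym_eq_one hJ
    obtain ⟨r, hr⟩ := hsq
    obtain ⟨b, rfl⟩ := ZMod.intCast_surjective r
    have hd : (p : ℤ) ∣ b ^ 2 - D := by
      rw [← ZMod.intCast_zmod_eq_zero_iff_dvd]
      push_cast
      rw [hr]
      ring
    obtain ⟨b, hd, hpar⟩ : ∃ b : ℤ, (p : ℤ) ∣ b ^ 2 - D ∧ (2 : ℤ) ∣ b - D := by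
      by_cases h2 : (2 : ℤ) ∣ b - D
      · exact ⟨b, hd, h2⟩
      · refine ⟨b + p, ?_, ?_⟩
        · rw [show (b + p) ^ 2 - D = b ^ 2 - D + p * (2 * b + p) by ring]
          exact hd.add (dvd_mul_right _ _)
        · obtain ⟨j, hj⟩ := hpo
          omega
    refine ⟨b, IsCoprime.mul_dvd ?_ ?_ hd⟩
    · rw [Int.isCoprime_iff_nat_coprime]
      simpa using (Nat.coprime_two_left.2 hpo).pow_left 2
    · obtain ⟨j, hj⟩ := hpar
      rw [show b ^ 2 - D = 4 * (j ^ 2 + j * D) + (D * D - D) by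
        rw [show b = D + 2 * j by linarith]; ring]
      refine (dvd_mul_right _ _).add ?_
      rcases hD4 with h0 | h1
      · exact ((Int.dvd_of_emod_eq_zero h0).mul_right D).sub (Int.dvd_of_emod_eq_zero h0)
      · rw [show D * D - D = D * (D - 1) by ring]
        exact (show (4 : ℤ) ∣ D - 1 by omega).mul_left D

omit hneg in
/-- The form with a given prime as first coefficient. -/
theorem exists_form_prime {p : ℕ} (hp : p.Prime) (hcop : IsCoprime (p : ℤ) D) {b : ℤ}
    (hb : 4 * (p : ℤ) ∣ b ^ 2 - D) : ∃ g : Form D, g.a = p := by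
  obtain ⟨c, hc⟩ := hb
  refine ⟨⟨p, b, c, by linear_combination hc, fun l hl h1 h2 h3 => ?_,
    fun _ => by exact_mod_cast hp.pos⟩, rfl⟩
  obtain rfl : l = p := (Nat.prime_dvd_prime_iff_eq hl hp).1 (Int.natCast_dvd_natCast.1 h1)
  refine (Nat.prime_iff_prime_int.1 hl).not_isUnit (hcop.isUnit_of_dvd' dvd_rfl ?_)
  rw [show D = b * b - l * (4 * c) by linear_combination -hc]
  exact (h2.mul_right b).sub (dvd_mul_right _ _)

end FA.GenusPrimes
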