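import Fermat.Agent.GenusPrimes.Values
import Fermat.Agent.GenusCount.Count
import Fermat.Agent.Tau.FormProgression

/-!
# One class in each genus

This holds exactly when the residue of a prime modulo `D` decides whether a form represents it; the
converse uses Meyer's theorem for a prime of a class in the principal genus.
-/

set_option autoImplicit false

noncomputable section

namespace FA.GenusPrimes

open FA.GaussComposition FA.GaussDuplication

variable {D : ℤ} (hneg : D < 0)
include hneg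

/-- The residues of the values agree inside a genus. -/
theorem sameGenus_values {μ : FormClass D → FormClass D → FormClass D} (hμ : IsComposition μ)
    {f g : Form D} (h : SameGenus f g) {m : ℤ} (hm : g.Represents m) :
    ∃ x y : ℤ, f.eval x y ≡ m [ZMOD D] := by
  have hns := not_isSquare_of_neg hneg
  obtain ⟨k, hk⟩ := (sameGenus_iff hns hμ g f).1 ((sameGenus_equivalence hns hμ).symm h)
  obtain ⟨G, hG, -, -, hrep⟩ := exists_commGroup hns hμ f
  subst hG
  obtain ⟨s, t, -, hs⟩ := k.exists_coprime_value (show D ≠ 0 from hneg.ne)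
  obtain ⟨d, hd⟩ := Quot.exists_rep (k.cl * k.cl)
  obtain ⟨x, y, e⟩ := hrep g d f m _ (by rw [show d.cl = k.cl * k.cl from hd]; exact hk.symm) hm
    (hrep k k d _ _ hd ⟨s, t, rfl⟩ ⟨s, t, rfl⟩)
  obtain ⟨u, v, huv⟩ := hs
  refine ⟨u * x, u * y, Int.modEq_iff_dvd.2 ⟨m * (v * (u * k.eval s t + 1)), ?_⟩⟩
  rw [show f.eval (u * x) (u * y) = u ^ 2 * f.eval x y by simp only [Form.eval]; ring, e]
  linear_combination (-(m * (u * k.eval s t + 1))) * huv

/-- **The genus criterion.** -/
theorem genus_criterion {μ : FormClass D → FormClass D → FormClass D} (hμ : IsComposition μ)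
    (f : Form D) {p : ℕ} (hp : p.Prime) (hcop : IsCoprime (p : ℤ) D) :
    (∃ g : Form D, SameGenus f g ∧ g.Represents p) ↔ ∃ x y : ℤ, f.eval x y ≡ p [ZMOD D] := by
  refine ⟨fun ⟨g, hg, hr⟩ => sameGenus_values hneg hμ hg hr, fun ⟨x, y, h⟩ => ?_⟩
  obtain ⟨b, hb⟩ := exists_sq_mod hneg f hp hcop h
  obtain ⟨g, hg⟩ := exists_form_prime hp hcop hb
  have he : g.eval 1 0 = p := by rw [Form.eval, hg]; ring
  exact ⟨g, ⟨x, y, 1, 0, isCoprime_of_modEq h.symm hcop, by rw [he]; exact h⟩, 1, 0, he⟩

/-- A prime value comes with a form whose first coefficient it is. -/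
theorem exists_prime_first {f : Form D} {p : ℕ} (hp : p.Prime) (h : f.Represents p) :
    ∃ k : Form D, f.Equivalent k ∧ k.a = p := by
  have hns := not_isSquare_of_neg hneg
  obtain ⟨x, y, hxy⟩ := h
  have hc : IsCoprime x y := by
    rw [Int.isCoprime_iff_gcd_eq_one]
    obtain ⟨c, hc⟩ : ((Int.gcd x y : ℕ) : ℤ) ^ 2 ∣ (p : ℤ) := by
      obtain ⟨u, hu⟩ := Int.gcd_dvd_left x y
      obtain ⟨v, hv⟩ := Int.gcd_dvd_right x y
      generalize (Int.gcd x y : ℤ) = d at hu hv ⊢
      refine ⟨f.eval u v, ?_⟩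
      rw [← hxy]
      simp only [Form.eval]
      rw [hu, hv]
      ring
    have hd : Int.gcd x y ^ 2 ∣ p := Int.natCast_dvd_natCast.1 ⟨c, by push_cast; exact hc⟩
    rcases hp.eq_one_or_self_of_dvd _ ((dvd_pow_self _ two_ne_zero).trans hd) with e | e
    · exact e
    · rw [e] at hd
      have := Nat.le_of_dvd hp.pos hd
      nlinarith [hp.two_le]
  obtain ⟨u, v, huv⟩ := hc
  obtain ⟨k, hk, hka, -⟩ :=
    f.exists_transform hns (p := x) (q := -v) (r := y) (s := u) (by linear_combination huv)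
  exact ⟨k, hk, hka.trans hxy⟩

/-- **Two forms with a common prime value** are equivalent or opposite. -/
theorem eq_or_opp_of_prime {f g : Form D} {p : ℕ} (hp : p.Prime) (hf : f.Represents p)
    (hg : g.Represents p) : f.cl = g.cl ∨ f.cl = g.opp.cl := by
  have hns := not_isSquare_of_neg hneg
  obtain ⟨k, hk, hka⟩ := exists_prime_first hneg hp hf
  obtain ⟨l, hl, hla⟩ := exists_prime_first hneg hp hg
  have hshift : ∀ h : Form D, h.a = p → (2 * (p : ℤ)) ∣ h.b - k.b → k.cl = h.cl := by
    intro h ha ⟨t, ht⟩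
    refine (cl_eq_iff hns).2 ⟨1, t, 0, 1, by ring, by simp [Form.eval, ha, hka],
      by rw [hka]; linear_combination ht, ?_⟩
    refine mul_left_cancel₀ (mul_ne_zero four_ne_zero (h.pos hneg).ne') ?_
    have e1 := h.disc
    have e2 := k.disc
    simp only [Form.eval]
    rw [ha] at e1 ⊢
    rw [hka] at e2 ⊢
    linear_combination e2 - e1 + (h.b + k.b + 2 * p * t) * ht
  have hpar : ∀ a b : Form D, (2 : ℤ) ∣ a.b - b.b := fun a b => by
    have h : (2 : ℤ) ∣ (a.b - b.b) ^ 2 :=
      ⟨2 * a.a * a.c - 2 * b.a * b.c + b.b ^ 2 - a.b * b.b, by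
        linear_combination a.disc - b.disc⟩
    exact Int.prime_two.dvd_of_dvd_pow h
  obtain ⟨i, hi⟩ := hpar l k
  have hprod : (p : ℤ) ∣ i * (k.b + i) := ⟨l.c - k.c, by
    have e1 := l.disc
    have e2 := k.disc
    rw [show l.b = k.b + 2 * i by linarith, hla] at e1
    rw [hka] at e2
    linarith⟩
  have hfk : f.cl = k.cl := Quot.sound hk
  have hgl : g.cl = l.cl := Quot.sound hl
  rcases (Nat.prime_iff_prime_int.1 hp).dvd_or_dvd hprod with ⟨j, hj⟩ | ⟨j, hj⟩
  · left
    rw [hfk, hgl]
    exact hshift l hla ⟨j, by rw [hi, hj]; ring⟩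
  · right
    have hgo : g.opp.cl = l.opp.cl := by
      obtain ⟨G, h1, hinv, -⟩ := exists_group hns (disc_mod_four f)
      rw [hinv g g.opp rfl rfl rfl, hinv l l.opp rfl rfl rfl, hgl]
    rw [hfk, hgo]
    refine hshift l.opp hla ⟨-j, ?_⟩
    show -l.b - k.b = _
    linear_combination -hi - 2 * hj

/-- One class in each genus. -/
def OneClassPerGenus (D : ℤ) : Prop := ∀ f g : Form D, SameGenus f g → f.cl = g.cl

theorem oneClass_iff_forall {μ : FormClass D → FormClass D → FormClass D} (hμ : IsComposition μ)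
    {e : Form D} (he : e.a = 1) :
    OneClassPerGenus D ↔ ∀ x : FormClass D, μ x x = e.cl := by
  have hns := not_isSquare_of_neg hneg
  constructor
  · intro h x
    obtain ⟨f, rfl⟩ := Quot.exists_rep x
    obtain ⟨d, hd⟩ := Quot.exists_rep (μ f.cl f.cl)
    exact hd.symm.trans (h e d ((duplication_principal hns hμ e d he).1 ⟨f, hd.symm⟩)).symm
  · intro h f g hfg
    obtain ⟨k, hk⟩ := (sameGenus_iff hns hμ f g).1 hfg
    obtain ⟨G, hG, h1, -, -⟩ := exists_commGroup hns hμ f
    rw [h, hG] at hk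
    rw [← hk, h1 e he]
    simp

theorem oneClass_iff_card {μ : FormClass D → FormClass D → FormClass D} (hμ : IsComposition μ)
    {e : Form D} (he : e.a = 1) :
    OneClassPerGenus D ↔ Nat.card (FormClass D) = 2 ^ (GenusCount.genusNumber D - 1) := by
  have hns := not_isSquare_of_neg hneg
  have := finite_formClass hns
  rw [oneClass_iff_forall hneg hμ he, ← GenusCount.card_amb hneg (disc_mod_four e),
    ← GenusCount.card_sq_eq_one hneg hμ e he]
  refine ⟨fun h => (Nat.card_congr (Equiv.subtypeUnivEquiv h)).symm, fun h x => ?_⟩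
  have hbij := (Nat.bijective_iff_injective_and_card
    (Subtype.val : {x : FormClass D // μ x x = e.cl} → FormClass D)).mpr
      ⟨Subtype.val_injective, h.symm⟩
  obtain ⟨⟨y, hy⟩, rfl⟩ := hbij.2 x
  exact hy

/-- **Congruences decide exactly with one class in each genus.** -/
theorem oneClass_iff_congruence :
    OneClassPerGenus D ↔ ∀ (f : Form D) (p : ℕ), p.Prime → IsCoprime (p : ℤ) D →
      (f.Represents p ↔ ∃ x y : ℤ, f.eval x y ≡ p [ZMOD D]) := by
  have hns := not_isSquare_of_neg hneg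
  constructor
  · intro h f p hp hcop
    refine ⟨fun ⟨x, y, e⟩ => ⟨x, y, by rw [e]⟩, fun hx => ?_⟩
    obtain ⟨G, -, -, hc, -⟩ := exists_group hns (disc_mod_four f)
    obtain ⟨g, hg, hr⟩ := (genus_criterion hneg hc f hp hcop).2 hx
    exact (((cl_eq_iff hns).1 (h f g hg)).represents_iff _).1 hr
  · intro h f g hfg
    obtain ⟨G, h1, hinv, hc, -⟩ := exists_group hns (disc_mod_four f)
    obtain ⟨e, he⟩ := exists_principal_form (disc_mod_four f)
    refine (oneClass_iff_forall hneg hc he).2 (fun z => ?_) f g hfg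
    obtain ⟨k, rfl⟩ := Quot.exists_rep z
    obtain ⟨d, hd⟩ := Quot.exists_rep (k.cl * k.cl)
    show k.cl * k.cl = e.cl
    have hed : SameGenus e d := (duplication_principal hns hc e d he).1 ⟨k, hd.symm⟩
    obtain ⟨x, y, -, hcop⟩ := d.exists_coprime_value (show D ≠ 0 from hneg.ne)
    have : NeZero D.natAbs := ⟨Int.natAbs_ne_zero.2 hneg.ne⟩
    have hDn : (D.natAbs : ℤ) = -D := by omega
    obtain ⟨p, ⟨hp, hpm, u, v, hpv⟩, -⟩ := (FA.FormProgression.infinite_primes_progression d.a d.b
      d.c (d.pos hneg) (by rw [d.disc]; exact hneg) (by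
        by_contra hne
        obtain ⟨l, hl, hld⟩ := Nat.exists_prime_and_dvd hne
        have hl' : (l : ℤ) ∣ ((Int.gcd (Int.gcd d.a d.b) d.c : ℕ) : ℤ) :=
          Int.natCast_dvd_natCast.2 hld
        exact d.prim l hl ((hl'.trans (Int.gcd_dvd_left _ _)).trans (Int.gcd_dvd_left _ _))
          ((hl'.trans (Int.gcd_dvd_left _ _)).trans (Int.gcd_dvd_right _ _))
          (hl'.trans (Int.gcd_dvd_right _ _))) D.natAbs (d.eval x y)
      (by rw [hDn]; exact hcop.neg_right) (Int.ModEq.refl (d.eval x y))).exists_gt 1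
    have hpm' : (p : ℤ) ≡ d.eval x y [ZMOD D] := by
      rw [hDn] at hpm
      exact Int.modEq_iff_dvd.2 (neg_dvd.1 hpm.dvd)
    have hpc : IsCoprime (p : ℤ) D := isCoprime_of_modEq hpm'.symm hcop
    have hdp : d.Represents p := ⟨u, v, hpv.symm⟩
    have hep : e.Represents p := (h e p hp hpc).2 (sameGenus_values hneg hc hed hdp)
    rcases eq_or_opp_of_prime hneg hp hdp hep with e' | e'
    · rw [← hd]; exact e'
    · rw [← hd]
      refine e'.trans ?_
      rw [hinv e e.opp rfl rfl rfl, h1 e he, inv_one]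

/-- All reduced forms ambiguous is enough. -/
theorem oneClass_of_ambiguous
    (h : ∀ f : Form D, GenusCount.Reduced f → GenusCount.Ambiguous f) : OneClassPerGenus D := by
  intro f g hfg
  have hns := not_isSquare_of_neg hneg
  obtain ⟨G, -, -, hc, -⟩ := exists_group hns (disc_mod_four f)
  obtain ⟨e, he⟩ := exists_principal_form (disc_mod_four f)
  refine (oneClass_iff_forall hneg hc he).2 (fun z => ?_) f g hfg
  obtain ⟨k, rfl⟩ := Quot.exists_rep z
  obtain ⟨r, hr, hred⟩ := GenusCount.exists_reduced_form hneg k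
  exact (show r.cl = Quot.mk _ k from hr) ▸
    (GenusCount.sq_eq_one_iff hneg hc e he hred).2 (h r hred)

end FA.GenusPrimes
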